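import Mathlib

set_option autoImplicit false

namespace Fermat.Agent.S14

open Module

/-- `∑_c c^{-2} = 0` in `𝔽_p` for `p ≥ 5`. -/
theorem sum_inv_sq_eq_zero (p : ℕ) [Fact p.Prime] (hp5 : 5 ≤ p) :
    ∑ c : (ZMod p)ˣ, ((c⁻¹ ^ 2 : (ZMod p)ˣ) : ZMod p) = 0 := by
  have hp : p.Prime := Fact.out
  -- `2` is a unit with `2 ^ 2 ≠ 1`
  have h2 : IsUnit (2 : ZMod p) := by
    have : ((2 : ℕ) : ZMod p) ≠ 0 := by
      intro h
      rw [ZMod.natCast_eq_zero_iff] at h
      have := Nat.le_of_dvd (by norm_num) h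
      omega
    exact (isUnit_iff_ne_zero.mpr (by exact_mod_cast this))
  obtain ⟨g, hg⟩ := h2
  set S : ZMod p := ∑ c : (ZMod p)ˣ, ((c⁻¹ ^ 2 : (ZMod p)ˣ) : ZMod p) with hS
  have h1 : S = ((g⁻¹ ^ 2 : (ZMod p)ˣ) : ZMod p) * S := by
    rw [hS, Finset.mul_sum]
    rw [← Equiv.sum_comp (Equiv.mulLeft g)]
    refine Finset.sum_congr rfl fun c _ => ?_
    simp only [Equiv.coe_mulLeft, mul_inv, mul_pow, Units.val_mul]
  have h3 : ((g ^ 2 : (ZMod p)ˣ) : ZMod p) * S = S := by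
    conv_lhs => rw [h1]
    rw [← mul_assoc, ← Units.val_mul, ← mul_pow, mul_inv_cancel, one_pow, Units.val_one, one_mul]
  have h4 : ((4 : ZMod p) - 1) * S = 0 := by
    have : ((g ^ 2 : (ZMod p)ˣ) : ZMod p) = 4 := by
      rw [Units.val_pow_eq_pow_val, hg]; norm_num
    rw [this] at h3
    rw [sub_mul, h3, one_mul, sub_self]
  have h5 : ((4 : ZMod p) - 1) ≠ 0 := by
    have : ((3 : ℕ) : ZMod p) ≠ 0 := by
      intro h
      rw [ZMod.natCast_eq_zero_iff] at h
      have := Nat.le_of_dvd (by norm_num) h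
      omega
    have h' : ((4 : ZMod p) - 1) = ((3 : ℕ) : ZMod p) := by norm_num
    rw [h']; exact this
  exact (mul_eq_zero.mp h4).resolve_left h5

/-- Abstract eigenspace lemma: if the "projector" has trace `1` then the eigenspace is a line. -/
theorem eigen_line (p : ℕ) [Fact p.Prime] {V : Type*} [AddCommGroup V] [Module (ZMod p) V]
    [FiniteDimensional (ZMod p) V] (hdim : finrank (ZMod p) V < p)
    (ρ : (ZMod p)ˣ → (V →ₗ[ZMod p] V)) (hρ : ∀ c d, ρ (c * d) = ρ c ∘ₗ ρ d)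
    (htr : -∑ c : (ZMod p)ˣ, ((c⁻¹ ^ 2 : (ZMod p)ˣ) : ZMod p) * LinearMap.trace (ZMod p) V (ρ c) = 1)
    (v₁ v₂ : V) (h₁ : ∀ c : (ZMod p)ˣ, ρ c v₁ = ((c ^ 2 : (ZMod p)ˣ) : ZMod p) • v₁)
    (h₂ : ∀ c : (ZMod p)ˣ, ρ c v₂ = ((c ^ 2 : (ZMod p)ˣ) : ZMod p) • v₂) (hne : v₁ ≠ 0) :
    ∃ k : ZMod p, v₂ = k • v₁ := by
  have hp : p.Prime := Fact.out
  let U : Submodule (ZMod p) V :=
    { carrier := {v | ∀ c : (ZMod p)ˣ, ρ c v = ((c ^ 2 : (ZMod p)ˣ) : ZMod p) • v}
      add_mem' := by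
        intro a b ha hb c
        rw [map_add, ha c, hb c, smul_add]
      zero_mem' := by intro c; simp
      smul_mem' := by
        intro r a ha c
        rw [map_smul, ha c, smul_comm] }
  let e : V →ₗ[ZMod p] V := -∑ c : (ZMod p)ˣ, ((c⁻¹ ^ 2 : (ZMod p)ˣ) : ZMod p) • ρ c
  have hcard : ((Fintype.card (ZMod p)ˣ : ℕ) : ZMod p) = -1 := by
    rw [ZMod.card_units_eq_totient, Nat.totient_prime hp]
    rw [Nat.cast_sub hp.one_le]
    simp
  have hproj : LinearMap.IsProj U e := by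
    constructor
    · intro x d
      simp only [e, LinearMap.neg_apply, LinearMap.sum_apply, LinearMap.smul_apply, map_neg, map_sum,
        map_smul, smul_neg, Finset.smul_sum]
      congr 1
      conv_rhs => rw [← Equiv.sum_comp (Equiv.mulLeft d)]
      refine Finset.sum_congr rfl fun c _ => ?_
      rw [Equiv.coe_mulLeft, hρ, LinearMap.comp_apply, smul_smul]
      congr 1
      rw [← Units.val_mul]
      congr 1
      rw [mul_inv, mul_pow, ← mul_assoc, ← mul_pow, mul_inv_cancel, one_pow, one_mul]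
    · intro x hx
      have hx' : ∀ c : (ZMod p)ˣ, ρ c x = ((c ^ 2 : (ZMod p)ˣ) : ZMod p) • x := hx
      simp only [e, LinearMap.neg_apply, LinearMap.sum_apply, LinearMap.smul_apply]
      have : ∀ c : (ZMod p)ˣ, ((c⁻¹ ^ 2 : (ZMod p)ˣ) : ZMod p) • ρ c x = x := by
        intro c
        rw [hx' c, smul_smul, ← Units.val_mul, ← mul_pow, inv_mul_cancel, one_pow, Units.val_one,
          one_smul]
      rw [Finset.sum_congr rfl fun c _ => this c, Finset.sum_const, Finset.card_univ,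
        ← Nat.cast_smul_eq_nsmul (ZMod p), hcard]
      simp
  have htrace := hproj.trace
  have he : LinearMap.trace (ZMod p) V e = 1 := by
    rw [← htr]
    simp only [e, map_neg, map_sum, map_smul, smul_eq_mul]
  rw [he] at htrace
  have hle : finrank (ZMod p) U ≤ finrank (ZMod p) V := Submodule.finrank_le U
  have hone : finrank (ZMod p) U = 1 := by
    have h1 : ((finrank (ZMod p) U : ℕ) : ZMod p) = ((1 : ℕ) : ZMod p) := by
      rw [← htrace]; simp
    rw [ZMod.natCast_eq_natCast_iff'] at h1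
    rw [Nat.mod_eq_of_lt (lt_of_le_of_lt hle hdim), Nat.mod_eq_of_lt hp.one_lt] at h1
    exact h1
  have hv1 : (⟨v₁, h₁⟩ : U) ≠ 0 := by
    intro h
    exact hne (congrArg Subtype.val h)
  obtain ⟨k, hk⟩ := (finrank_eq_one_iff_of_nonzero' (⟨v₁, h₁⟩ : U) hv1).mp hone ⟨v₂, h₂⟩
  exact ⟨k, (congrArg Subtype.val hk).symm⟩

end Fermat.Agent.S14
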