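import Mathlib

set_option autoImplicit false

namespace Fermat.Agent.S14

open Module NumberField NumberField.Units NumberField.InfinitePlace
  NumberField.Units.dirichletUnitTheorem

variable (K : Type) [Field K] [NumberField K]

/-- the action of `σ` on units. -/
noncomputable def unitMap (σ : Gal(K/ℚ)) : (𝓞 K)ˣ →* (𝓞 K)ˣ :=
  Units.map (MulSemiringAction.toRingEquiv Gal(K/ℚ) (𝓞 K) σ : 𝓞 K →* 𝓞 K)

theorem coe_unitMap (σ : Gal(K/ℚ)) (u : (𝓞 K)ˣ) :
    (((unitMap K σ u : (𝓞 K)ˣ) : 𝓞 K) : K) = σ ((u : 𝓞 K) : K) := rfl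

open scoped Classical in
/-- the action of `σ` on the logarithmic space. -/
noncomputable def logAct (σ : Gal(K/ℚ)) : logSpace K →ₗ[ℝ] logSpace K where
  toFun x w := if h : σ⁻¹ • w.1 = w₀ then -∑ w', x w' else x ⟨σ⁻¹ • w.1, h⟩
  map_add' x y := by
    funext w
    by_cases h : σ⁻¹ • w.1 = w₀
    · simp [h, Finset.sum_add_distrib]; ring
    · simp [h]
  map_smul' r x := by
    funext w
    by_cases h : σ⁻¹ • w.1 = w₀
    · simp [h, Finset.mul_sum]
    · simp [h]

theorem mult_smul_eq (σ : Gal(K/ℚ)) (w : InfinitePlace K) : mult (σ • w) = mult w := by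
  by_cases h : IsReal w
  · rw [h.mult_eq_one, (isReal_smul_iff.mpr h).mult_eq_one]
  · have h' : ¬ IsReal (σ • w) := fun h' => h (isReal_smul_iff.mp h')
    rw [(not_isReal_iff_isComplex.mp h).mult_eq_two, (not_isReal_iff_isComplex.mp h').mult_eq_two]

theorem logAct_logEmbedding (σ : Gal(K/ℚ)) (u : (𝓞 K)ˣ) :
    logAct K σ (logEmbedding K (Additive.ofMul u)) =
      logEmbedding K (Additive.ofMul (unitMap K σ u)) := by
  classical
  funext w
  have key : ∀ w : InfinitePlace K, (mult (σ⁻¹ • w) : ℝ) * Real.log ((σ⁻¹ • w) ((u : 𝓞 K) : K)) =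
      mult w * Real.log (w (((unitMap K σ u : (𝓞 K)ˣ) : 𝓞 K) : K)) := by
    intro w
    rw [mult_smul_eq, InfinitePlace.smul_apply, coe_unitMap]
    rfl
  rw [logEmbedding_component, ← key]
  by_cases h : σ⁻¹ • w.1 = w₀
  · have : logAct K σ (logEmbedding K (Additive.ofMul u)) w =
        -∑ w', logEmbedding K (Additive.ofMul u) w' := by
      simp only [logAct, LinearMap.coe_mk, AddHom.coe_mk, h, dite_true]
    rw [this, sum_logEmbedding_component, h]
    ring
  · have : logAct K σ (logEmbedding K (Additive.ofMul u)) w =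
        logEmbedding K (Additive.ofMul u) ⟨σ⁻¹ • w.1, h⟩ := by
      simp only [logAct, LinearMap.coe_mk, AddHom.coe_mk, h, dite_false]
    rw [this, logEmbedding_component]

theorem trace_logAct_of_trivial (σ : Gal(K/ℚ)) (h : ∀ w : InfinitePlace K, σ • w = w) :
    LinearMap.trace ℝ (logSpace K) (logAct K σ) = (rank K : ℝ) := by
  classical
  have h' : ∀ w : InfinitePlace K, σ⁻¹ • w = w := fun w => by
    rw [inv_smul_eq_iff, h]
  have : logAct K σ = LinearMap.id := by
    refine LinearMap.ext fun x => funext fun w => ?_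
    have hw : ¬ σ⁻¹ • w.1 = w₀ := by rw [h']; exact w.2
    simp only [logAct, LinearMap.coe_mk, AddHom.coe_mk, hw, dite_false, LinearMap.id_apply]
    exact congrArg x (Subtype.ext (h' w.1))
  rw [this, LinearMap.trace_id, Units.finrank_eq_rank]

theorem trace_logAct_of_free (σ : Gal(K/ℚ)) (h : ∀ w : InfinitePlace K, σ • w ≠ w) :
    LinearMap.trace ℝ (logSpace K) (logAct K σ) = -1 := by
  classical
  have h' : ∀ w : InfinitePlace K, σ⁻¹ • w ≠ w := fun w hw => by
    rw [inv_smul_eq_iff] at hw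
    exact h w hw.symm
  rw [LinearMap.trace_eq_matrix_trace ℝ (Pi.basisFun ℝ _), Matrix.trace]
  have hdiag : ∀ w : {w : InfinitePlace K // w ≠ w₀},
      (LinearMap.toMatrix (Pi.basisFun ℝ _) (Pi.basisFun ℝ _) (logAct K σ)).diag w =
        if w.1 = σ • w₀ then -1 else 0 := by
    intro w
    rw [Matrix.diag_apply, LinearMap.toMatrix_apply, Pi.basisFun_apply, Pi.basisFun_repr]
    by_cases hw : σ⁻¹ • w.1 = w₀
    · have hw2 : w.1 = σ • w₀ := (inv_smul_eq_iff.mp hw)
      rw [if_pos hw2]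
      simp only [logAct, LinearMap.coe_mk, AddHom.coe_mk, hw, dite_true]
      rw [Finset.sum_pi_single']
      simp
    · have hw2 : ¬ w.1 = σ • w₀ := fun h2 => hw (by rw [h2, inv_smul_smul])
      rw [if_neg hw2]
      simp only [logAct, LinearMap.coe_mk, AddHom.coe_mk, hw, dite_false]
      rw [Pi.single_apply, if_neg]
      intro h3
      exact h' w.1 (congrArg Subtype.val h3)
  rw [Finset.sum_congr rfl fun w _ => hdiag w]
  rw [Finset.sum_eq_single (⟨σ • w₀, h w₀⟩ : {w : InfinitePlace K // w ≠ w₀})]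
  · simp
  · intro w _ hw
    rw [if_neg]
    intro h2
    exact hw (Subtype.ext h2)
  · intro h2
    exact absurd (Finset.mem_univ _) h2

/-- the action of `σ` on the unit lattice. -/
noncomputable def latAct (σ : Gal(K/ℚ)) : unitLattice K →ₗ[ℤ] unitLattice K :=
  ((logAct K σ).restrictScalars ℤ).restrict (p := unitLattice K) (by
    rintro _ ⟨u, -, rfl⟩
    exact ⟨Additive.ofMul (unitMap K σ u.toMul), trivial, (logAct_logEmbedding K σ u.toMul).symm⟩)

/-- the class of a unit in the unit lattice. -/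
noncomputable def latCls (u : (𝓞 K)ˣ) : unitLattice K :=
  ⟨logEmbedding K (Additive.ofMul u), ⟨Additive.ofMul u, trivial, rfl⟩⟩

theorem latAct_latCls (σ : Gal(K/ℚ)) (u : (𝓞 K)ˣ) :
    latAct K σ (latCls K u) = latCls K (unitMap K σ u) :=
  Subtype.ext (logAct_logEmbedding K σ u)

theorem latCls_surjective (x : unitLattice K) : ∃ u, latCls K u = x := by
  obtain ⟨_, ⟨u, -, rfl⟩⟩ := x
  exact ⟨u.toMul, rfl⟩

theorem latCls_mul (u v : (𝓞 K)ˣ) : latCls K (u * v) = latCls K u + latCls K v :=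
  Subtype.ext (by simp [latCls])

theorem latCls_pow (u : (𝓞 K)ˣ) (n : ℕ) : latCls K (u ^ n) = n • latCls K u :=
  Subtype.ext (by simp [latCls])

theorem latCls_eq_zero_iff (u : (𝓞 K)ˣ) : latCls K u = 0 ↔ u ∈ torsion K := by
  rw [← logEmbedding_eq_zero_iff]
  exact Subtype.ext_iff

theorem trace_latAct (σ : Gal(K/ℚ)) :
    ((LinearMap.trace ℤ (unitLattice K) (latAct K σ) : ℤ) : ℝ) =
      LinearMap.trace ℝ (logSpace K) (logAct K σ) := by
  classical
  let b := basisUnitLattice K
  let b' := b.ofZLatticeBasis ℝ (unitLattice K)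
  rw [LinearMap.trace_eq_matrix_trace ℤ b, LinearMap.trace_eq_matrix_trace ℝ b', Matrix.trace,
    Matrix.trace]
  push_cast
  refine Finset.sum_congr rfl fun i _ => ?_
  rw [Matrix.diag_apply, Matrix.diag_apply, LinearMap.toMatrix_apply, LinearMap.toMatrix_apply]
  have : logAct K σ (b' i) = ((latAct K σ (b i) : unitLattice K) : logSpace K) := by
    rw [Basis.ofZLatticeBasis_apply]
    rfl
  rw [this, Basis.ofZLatticeBasis_repr_apply]

theorem latAct_mul (σ τ : Gal(K/ℚ)) : latAct K (σ * τ) = latAct K σ ∘ₗ latAct K τ := by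
  ext x
  obtain ⟨u, rfl⟩ := latCls_surjective K x
  rw [LinearMap.comp_apply, latAct_latCls, latAct_latCls, latAct_latCls]
  congr 2

end Fermat.Agent.S14
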